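import Mathlib
import Fermat.Agent.H62.Cheb2.Interfaces

/-!
# P-CHEB phase 2, row 442 (CH2-COUNT): intermediate interfaces (helper90)

`IdealCharSumStatement` (helper62's interface) is split into

* `CosetConeCountStatement` (CC): points of the ideal lattice of `J` in the fundamental cone, of
  norm `≤ y`, whose integral norm lies in a prescribed residue class modulo `M`, are counted by
  `κ y + O(y ^ (1 - 1/d))` (lattice points in cosets, with signs);
* `IdealNormClassCountStatement` (IC): ideals of norm `≤ n` whose norm lies in a prescribed residue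
  class modulo `m` are counted by `κ n + O(n ^ (1 - 1/d))`.

`CC ⟹ IC ⟹ IdealCharSumStatement` is pure bookkeeping (proved in `Fermat.Agent.H90.Ch2.*`).
-/

set_option autoImplicit false

open NumberField NumberField.mixedEmbedding NumberField.mixedEmbedding.fundamentalCone Ideal
open scoped nonZeroDivisors

namespace Fermat.Agent.H90.Ch2

/-- **(CC)** coset cone count: the number of points `a` of `idealSet K J` (fundamental cone
intersected with the ideal lattice of `J`) of norm `≤ y` whose integral norm is `≡ ρ mod M` is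
`κ y + O(y ^ (1 - 1/[K:ℚ]))` for some `κ`. -/
def CosetConeCountStatement : Prop :=
  ∀ (K : Type) [Field K] [NumberField K] (J : (Ideal (𝓞 K))⁰) (M : ℕ) [NeZero M] (ρ : ZMod M),
    ∃ (κ B : ℝ), ∀ y : ℝ, 1 ≤ y →
      |(Nat.card {a : idealSet K J // mixedEmbedding.norm (a : mixedSpace K) ≤ y ∧
          ((intNorm (idealSetMap K J a) : ℕ) : ZMod M) = ρ} : ℝ) - κ * y| ≤
        B * y ^ (1 - 1 / (Module.finrank ℚ K : ℝ))

/-- **(IC)** ideal counting in norm residue classes: the number of ideals `I` of `𝓞 K` with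
`1 ≤ N I ≤ n` and `N I ≡ r mod m` is `κ n + O(n ^ (1 - 1/[K:ℚ]))` for some `κ`. -/
def IdealNormClassCountStatement : Prop :=
  ∀ (K : Type) [Field K] [NumberField K] (m : ℕ) [NeZero m] (r : ZMod m),
    ∃ (κ B : ℝ), ∀ n : ℕ,
      |(Nat.card {I : Ideal (𝓞 K) // 1 ≤ absNorm I ∧ absNorm I ≤ n ∧
          ((absNorm I : ℕ) : ZMod m) = r} : ℝ) - κ * (n : ℝ)| ≤
        B * (n : ℝ) ^ (1 - 1 / (Module.finrank ℚ K : ℝ))

end Fermat.Agent.H90.Ch2
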