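import Mathlib
import Fermat.Agent.H90.Ch2.Interfaces

/-!
# P-CHEB phase 2, row 442: `IdealNormClassCountStatement → IdealCharSumStatement` (helper90)
-/

set_option autoImplicit false

open NumberField Ideal Finset
open scoped nonZeroDivisors

namespace Fermat.Agent.H90.Ch2

open Fermat.Agent.H62.Cheb2

/-- Counting a set fibrewise over the values `1 ≤ k ≤ n` of a function with finite fibres. -/
theorem card_fiberwise_Icc {α : Type*} (f : α → ℕ) (P : ℕ → Prop) [DecidablePred P] (n : ℕ)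
    (hfin : ∀ k, {a | f a = k}.Finite) :
    Nat.card {a // 1 ≤ f a ∧ f a ≤ n ∧ P (f a)} =
      ∑ k ∈ Finset.Icc 1 n, if P k then Nat.card {a // f a = k} else 0 := by
  classical
  have hS : {a | 1 ≤ f a ∧ f a ≤ n ∧ P (f a)}.Finite := by
    refine ((Set.finite_Icc 1 n).biUnion (fun k _ => hfin k)).subset ?_
    intro a ha
    simp only [Set.mem_iUnion, Set.mem_Icc, Set.mem_ofPred_eq, exists_prop]
    exact ⟨f a, ⟨ha.1, ha.2.1⟩, rfl⟩
  have h1 : Nat.card {a // 1 ≤ f a ∧ f a ≤ n ∧ P (f a)} = hS.toFinset.card := by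
    rw [← Set.ncard_eq_toFinset_card _ hS]
    exact Nat.card_coe_set_eq _
  rw [h1, Finset.card_eq_sum_card_fiberwise (f := f) (t := Finset.Icc 1 n)]
  · refine Finset.sum_congr rfl fun k hk => ?_
    rw [Finset.mem_Icc] at hk
    split_ifs with hP
    · have h2 : Nat.card {a // f a = k} = (hfin k).toFinset.card := by
        rw [← Set.ncard_eq_toFinset_card _ (hfin k)]
        exact Nat.card_coe_set_eq _
      rw [h2]
      congr 1
      ext a
      simp only [Finset.mem_filter, Set.Finite.mem_toFinset, Set.mem_ofPred_eq]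
      constructor
      · rintro ⟨_, h⟩
        exact h
      · intro h
        exact ⟨⟨by rw [h]; exact hk.1, by rw [h]; exact hk.2, by rw [h]; exact hP⟩, h⟩
    · rw [Finset.card_eq_zero, Finset.filter_eq_empty_iff]
      intro a ha h
      simp only [Set.Finite.mem_toFinset, Set.mem_ofPred_eq] at ha
      exact hP (h ▸ ha.2.2)
  · intro a ha
    simp only [Set.Finite.coe_toFinset, Set.mem_ofPred_eq] at ha
    simp only [Finset.coe_Icc, Set.mem_Icc]
    exact ⟨ha.1, ha.2.1⟩

/-- **IC ⟹ CH2-COUNT**: the character sums over ideals have a main term with a power-saving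
error. -/
theorem idealCharSum_of_idealNormClassCount (h : IdealNormClassCountStatement) :
    IdealCharSumStatement := by
  classical
  intro E _ _ m _ χ
  choose κ B hκ using fun r : ZMod m => h E m r
  have hfin : ∀ k : ℕ, {I : Ideal (𝓞 E) | absNorm I = k}.Finite :=
    fun k => Ideal.finite_setOfPred_absNorm_eq k
  refine ⟨∑ r : ZMod m, χ r * (κ r : ℂ), ∑ r : ZMod m, |B r|, fun n => ?_⟩
  set e : ℝ := 1 - 1 / (Module.finrank ℚ E : ℝ) with he
  -- the counting functions
  set cnt : ZMod m → ℝ := fun r =>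
    (Nat.card {I : Ideal (𝓞 E) // 1 ≤ absNorm I ∧ absNorm I ≤ n ∧
      ((absNorm I : ℕ) : ZMod m) = r} : ℝ) with hcnt
  have hkey : (∑ k ∈ Finset.Icc 1 n, normCharCoeff E m χ k) =
      ∑ r : ZMod m, χ r * ((cnt r : ℝ) : ℂ) := by
    have h1 : ∀ r : ZMod m, ((cnt r : ℝ) : ℂ) =
        ∑ k ∈ Finset.Icc 1 n, if ((k : ℕ) : ZMod m) = r then (idealCount E k : ℂ) else 0 := by
      intro r
      simp only [hcnt]
      rw [card_fiberwise_Icc (fun I : Ideal (𝓞 E) => absNorm I)
        (fun k : ℕ => ((k : ℕ) : ZMod m) = r) n hfin]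
      push_cast
      refine Finset.sum_congr rfl fun k _ => ?_
      split_ifs <;> simp [idealCount]
    simp_rw [h1, Finset.mul_sum]
    rw [Finset.sum_comm]
    refine Finset.sum_congr rfl fun k _ => ?_
    simp only [mul_ite, mul_zero]
    rw [Finset.sum_ite_eq]
    simp [normCharCoeff]
  rw [hkey, Finset.sum_mul, ← Finset.sum_sub_distrib]
  calc ‖∑ r : ZMod m, (χ r * ((cnt r : ℝ) : ℂ) - χ r * (κ r : ℂ) * (n : ℂ))‖
      ≤ ∑ r : ZMod m, ‖χ r * ((cnt r : ℝ) : ℂ) - χ r * (κ r : ℂ) * (n : ℂ)‖ := norm_sum_le _ _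
    _ ≤ ∑ r : ZMod m, |B r| * (n : ℝ) ^ e := by
        refine Finset.sum_le_sum fun r _ => ?_
        have h2 : χ r * ((cnt r : ℝ) : ℂ) - χ r * (κ r : ℂ) * (n : ℂ) =
            χ r * (((cnt r - κ r * (n : ℝ) : ℝ)) : ℂ) := by
          push_cast
          ring
        rw [h2, norm_mul, Complex.norm_real, Real.norm_eq_abs]
        have h3 : ‖χ r‖ ≤ 1 := DirichletCharacter.norm_le_one χ r
        have h4 : |cnt r - κ r * (n : ℝ)| ≤ B r * (n : ℝ) ^ e := hκ r n
        have h5 : 0 ≤ (n : ℝ) ^ e := Real.rpow_nonneg (Nat.cast_nonneg n) e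
        calc ‖χ r‖ * |cnt r - κ r * (n : ℝ)| ≤ 1 * |cnt r - κ r * (n : ℝ)| :=
              mul_le_mul_of_nonneg_right h3 (abs_nonneg _)
          _ = |cnt r - κ r * (n : ℝ)| := one_mul _
          _ ≤ B r * (n : ℝ) ^ e := h4
          _ ≤ |B r| * (n : ℝ) ^ e := mul_le_mul_of_nonneg_right (le_abs_self _) h5
    _ = (∑ r : ZMod m, |B r|) * (n : ℝ) ^ e := by rw [Finset.sum_mul]

end Fermat.Agent.H90.Ch2
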