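import Mathlib
import Fermat.Agent.H90.Ch2.Interfaces
import Fermat.Agent.H90.Ch2.CharSum

/-!
# P-CHEB phase 2, row 442: `CosetConeCountStatement → IdealNormClassCountStatement` (helper90)

Class decomposition: ideals in the class `C` with norm `≡ r mod m` correspond (after multiplying
by a fixed integral ideal `J` of class `C⁻¹`) to principal ideals divisible by `J` whose norm is
`≡ r̃ N(J) mod m N(J)`, and these are counted (torsion-order times) by the points of the ideal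
lattice of `J` in the fundamental cone.
-/

set_option autoImplicit false

open NumberField NumberField.mixedEmbedding NumberField.mixedEmbedding.fundamentalCone Ideal
  NumberField.Units Submodule
open scoped nonZeroDivisors

namespace Fermat.Agent.H90.Ch2

variable {K : Type} [Field K] [NumberField K]

/-- multiplying a congruence by a nonzero constant -/
theorem natCast_zmod_mul_iff (m c : ℕ) (hc : c ≠ 0) (a b : ℕ) :
    ((c * a : ℕ) : ZMod (m * c)) = ((b * c : ℕ) : ZMod (m * c)) ↔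
      ((a : ℕ) : ZMod m) = ((b : ℕ) : ZMod m) := by
  rw [ZMod.natCast_eq_natCast_iff, ZMod.natCast_eq_natCast_iff, mul_comm m c, mul_comm b c]
  exact ⟨fun h => Nat.ModEq.mul_left_cancel' hc h, fun h => Nat.ModEq.mul_left' c h⟩

/-- **Step A**: ideals of class `C` with norm `≡ r mod m` correspond to principal ideals
divisible by `J`, `[J] = C⁻¹`, with norm `≡ r̃ N(J) mod m N(J)`. -/
theorem card_class_eq_card_dvd {C : ClassGroup (𝓞 K)} {J : (Ideal (𝓞 K))⁰}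
    (hJ : ClassGroup.mk0 J = C⁻¹) (m : ℕ) [NeZero m] (r : ZMod m) (n : ℕ) :
    Nat.card {I : (Ideal (𝓞 K))⁰ // (absNorm (I : Ideal (𝓞 K)) ≤ n ∧
        ((absNorm (I : Ideal (𝓞 K)) : ℕ) : ZMod m) = r) ∧ ClassGroup.mk0 I = C}
      = Nat.card {I : (Ideal (𝓞 K))⁰ // (J : Ideal (𝓞 K)) ∣ I ∧
          (IsPrincipal (I : Ideal (𝓞 K)) ∧
          absNorm (I : Ideal (𝓞 K)) ≤ n * absNorm (J : Ideal (𝓞 K)) ∧
          ((absNorm (I : Ideal (𝓞 K)) : ℕ) : ZMod (m * absNorm (J : Ideal (𝓞 K)))) =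
            ((r.val * absNorm (J : Ideal (𝓞 K)) : ℕ) :
              ZMod (m * absNorm (J : Ideal (𝓞 K)))))} := by
  have hJ0 : absNorm (J : Ideal (𝓞 K)) ≠ 0 := (absNorm_pos_of_nonZeroDivisors J).ne'
  simp_rw [← nonZeroDivisors_dvd_iff_dvd_coe]
  refine Nat.card_congr ?_
  refine ((Equiv.dvd J).subtypeEquiv fun I ↦ ?_).trans
    (Equiv.subtypeSubtypeEquivSubtypeInter (fun I : (Ideal (𝓞 K))⁰ ↦ J ∣ I) _)
  rw [← ClassGroup.mk0_eq_one_iff (SetLike.coe_mem _)]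
  simp only [Equiv.dvd_apply, Submonoid.coe_mul, ← Submonoid.mul_def, _root_.map_mul, hJ,
    inv_mul_eq_one]
  rw [natCast_zmod_mul_iff m _ hJ0, mul_comm n, Nat.mul_le_mul_left_iff (Nat.pos_of_ne_zero hJ0),
    ZMod.natCast_zmod_val]
  constructor
  · rintro ⟨⟨h1, h2⟩, h3⟩
    exact ⟨h3.symm, h1, h2⟩
  · rintro ⟨h3, h1, h2⟩
    exact ⟨⟨h1, h2⟩, h3.symm⟩

theorem finite_dvd_principal_norm_eq (J : (Ideal (𝓞 K))⁰) (k : ℕ) :
    Finite {I : (Ideal (𝓞 K))⁰ // (J : Ideal (𝓞 K)) ∣ I ∧ IsPrincipal (I : Ideal (𝓞 K)) ∧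
      absNorm (I : Ideal (𝓞 K)) = k} := by
  have h := Ideal.finite_setOfPred_absNorm_le₀ (S := 𝓞 K) k
  exact (h.subset (fun I hI => le_of_eq hI.2.2)).to_subtype

theorem intNorm_idealSetMap_coe (J : (Ideal (𝓞 K))⁰) (a : idealSet K J) :
    ((intNorm (idealSetMap K J a) : ℕ) : ℝ) = mixedEmbedding.norm (a : mixedSpace K) := by
  rw [intNorm_coe, idealSetMap_apply]

theorem intNorm_idealSetMap_pos (J : (Ideal (𝓞 K))⁰) (a : idealSet K J) :
    1 ≤ intNorm (idealSetMap K J a) := by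
  have h1 : 0 < mixedEmbedding.norm (a : mixedSpace K) := norm_pos_of_mem a.2.1
  rw [← intNorm_idealSetMap_coe] at h1
  exact_mod_cast h1

/-- fibre of the norm on the cone points = (fibre of the norm on principal ideals) × torsion -/
theorem card_intNorm_eq (J : (Ideal (𝓞 K))⁰) (k : ℕ) :
    Nat.card {a : idealSet K J // intNorm (idealSetMap K J a) = k} =
      Nat.card {I : (Ideal (𝓞 K))⁰ // (J : Ideal (𝓞 K)) ∣ I ∧ IsPrincipal (I : Ideal (𝓞 K)) ∧
        absNorm (I : Ideal (𝓞 K)) = k} * torsionOrder K := by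
  rw [torsionOrder, ← Nat.card_prod]
  refine Nat.card_congr (Equiv.trans (Equiv.subtypeEquivRight fun a => ?_)
    (idealSetEquivNorm K J k))
  rw [← intNorm_idealSetMap_coe, Nat.cast_inj]

theorem finite_intNorm_eq (J : (Ideal (𝓞 K))⁰) (k : ℕ) :
    {a : idealSet K J | intNorm (idealSetMap K J a) = k}.Finite := by
  have : Finite {I : (Ideal (𝓞 K))⁰ // (J : Ideal (𝓞 K)) ∣ I ∧ IsPrincipal (I : Ideal (𝓞 K)) ∧
      absNorm (I : Ideal (𝓞 K)) = k} := finite_dvd_principal_norm_eq J k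
  have h2 : Finite {a : idealSet K J // intNorm (idealSetMap K J a) = k} := by
    refine Finite.of_equiv _ (Equiv.trans (Equiv.subtypeEquivRight fun a => ?_)
      (idealSetEquivNorm K J k)).symm
    rw [← intNorm_idealSetMap_coe, Nat.cast_inj]
  exact Set.finite_coe_iff.mp h2

/-- fibrewise counting with an extra predicate -/
theorem card_fiberwise_Icc' {α : Type*} (Q : α → Prop) (f : α → ℕ) (P : ℕ → Prop)
    [DecidablePred P] (n : ℕ) (hfin : ∀ k, {a | Q a ∧ f a = k}.Finite) :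
    Nat.card {a // Q a ∧ 1 ≤ f a ∧ f a ≤ n ∧ P (f a)} =
      ∑ k ∈ Finset.Icc 1 n, if P k then Nat.card {a // Q a ∧ f a = k} else 0 := by
  have hfin' : ∀ k, {x : {a // Q a} | f x.1 = k}.Finite := by
    intro k
    have : Finite {a // Q a ∧ f a = k} := (hfin k).to_subtype
    have h2 : Finite {x : {a // Q a} // f x.1 = k} :=
      Finite.of_equiv _ (Equiv.subtypeSubtypeEquivSubtypeInter Q (fun a => f a = k)).symm
    exact Set.finite_coe_iff.mp h2
  have h := card_fiberwise_Icc (fun x : {a // Q a} => f x.1) P n hfin'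
  rw [Nat.card_congr (Equiv.subtypeSubtypeEquivSubtypeInter Q
    (fun a => 1 ≤ f a ∧ f a ≤ n ∧ P (f a)))] at h
  rw [h]
  refine Finset.sum_congr rfl fun k _ => ?_
  rw [Nat.card_congr (Equiv.subtypeSubtypeEquivSubtypeInter Q (fun a => f a = k))]

/-- **Step B**: principal ideals divisible by `J` with norm `≤ N` and `≡ ρ mod M`, counted
`torsionOrder` times, are the points of `idealSet K J` with the same norm conditions. -/
theorem card_dvd_mul_torsionOrder (J : (Ideal (𝓞 K))⁰) (M : ℕ) (ρ : ZMod M) (N : ℕ) :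
    Nat.card {I : (Ideal (𝓞 K))⁰ // (J : Ideal (𝓞 K)) ∣ I ∧
        (IsPrincipal (I : Ideal (𝓞 K)) ∧ absNorm (I : Ideal (𝓞 K)) ≤ N ∧
          ((absNorm (I : Ideal (𝓞 K)) : ℕ) : ZMod M) = ρ)} * torsionOrder K =
      Nat.card {a : idealSet K J // mixedEmbedding.norm (a : mixedSpace K) ≤ (N : ℝ) ∧
        ((intNorm (idealSetMap K J a) : ℕ) : ZMod M) = ρ} := by
  classical
  -- right-hand side
  have hR : Nat.card {a : idealSet K J // mixedEmbedding.norm (a : mixedSpace K) ≤ (N : ℝ) ∧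
        ((intNorm (idealSetMap K J a) : ℕ) : ZMod M) = ρ} =
      ∑ k ∈ Finset.Icc 1 N, if ((k : ℕ) : ZMod M) = ρ then
        Nat.card {a : idealSet K J // intNorm (idealSetMap K J a) = k} else 0 := by
    rw [← card_fiberwise_Icc (fun a : idealSet K J => intNorm (idealSetMap K J a))
      (fun k : ℕ => ((k : ℕ) : ZMod M) = ρ) N (finite_intNorm_eq J)]
    refine Nat.card_congr (Equiv.subtypeEquivRight fun a => ?_)
    rw [← intNorm_idealSetMap_coe, Nat.cast_le]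
    exact ⟨fun h => ⟨intNorm_idealSetMap_pos J a, h.1, h.2⟩, fun h => ⟨h.2.1, h.2.2⟩⟩
  -- left-hand side
  have hL : Nat.card {I : (Ideal (𝓞 K))⁰ // (J : Ideal (𝓞 K)) ∣ I ∧
        (IsPrincipal (I : Ideal (𝓞 K)) ∧ absNorm (I : Ideal (𝓞 K)) ≤ N ∧
          ((absNorm (I : Ideal (𝓞 K)) : ℕ) : ZMod M) = ρ)} =
      ∑ k ∈ Finset.Icc 1 N, if ((k : ℕ) : ZMod M) = ρ then
        Nat.card {I : (Ideal (𝓞 K))⁰ // (J : Ideal (𝓞 K)) ∣ I ∧
          IsPrincipal (I : Ideal (𝓞 K)) ∧ absNorm (I : Ideal (𝓞 K)) = k} else 0 := by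
    have hfin : ∀ k : ℕ, {I : (Ideal (𝓞 K))⁰ | ((J : Ideal (𝓞 K)) ∣ I ∧
        IsPrincipal (I : Ideal (𝓞 K))) ∧ absNorm (I : Ideal (𝓞 K)) = k}.Finite := by
      intro k
      have h := Ideal.finite_setOfPred_absNorm_le₀ (S := 𝓞 K) k
      exact h.subset (fun I hI => le_of_eq hI.2)
    have h := card_fiberwise_Icc' (fun I : (Ideal (𝓞 K))⁰ => (J : Ideal (𝓞 K)) ∣ I ∧
      IsPrincipal (I : Ideal (𝓞 K))) (fun I : (Ideal (𝓞 K))⁰ => absNorm (I : Ideal (𝓞 K)))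
      (fun k : ℕ => ((k : ℕ) : ZMod M) = ρ) N hfin
    have e1 : Nat.card {I : (Ideal (𝓞 K))⁰ // (J : Ideal (𝓞 K)) ∣ I ∧
        (IsPrincipal (I : Ideal (𝓞 K)) ∧ absNorm (I : Ideal (𝓞 K)) ≤ N ∧
          ((absNorm (I : Ideal (𝓞 K)) : ℕ) : ZMod M) = ρ)} =
        Nat.card {I : (Ideal (𝓞 K))⁰ // ((J : Ideal (𝓞 K)) ∣ I ∧
          IsPrincipal (I : Ideal (𝓞 K))) ∧ 1 ≤ absNorm (I : Ideal (𝓞 K)) ∧
          absNorm (I : Ideal (𝓞 K)) ≤ N ∧ ((absNorm (I : Ideal (𝓞 K)) : ℕ) : ZMod M) = ρ} := by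
      refine Nat.card_congr (Equiv.subtypeEquivRight fun I => ?_)
      have hpos : 1 ≤ absNorm (I : Ideal (𝓞 K)) := absNorm_pos_of_nonZeroDivisors I
      constructor
      · rintro ⟨h1, h2, h3, h4⟩
        exact ⟨⟨h1, h2⟩, hpos, h3, h4⟩
      · rintro ⟨⟨h1, h2⟩, -, h3, h4⟩
        exact ⟨h1, h2, h3, h4⟩
    rw [e1, h]
    refine Finset.sum_congr rfl fun k _ => ?_
    congr 1
    refine Nat.card_congr (Equiv.subtypeEquivRight fun I => ?_)
    exact and_assoc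
  rw [hL, hR, Finset.sum_mul]
  refine Finset.sum_congr rfl fun k _ => ?_
  split_ifs
  · rw [card_intNorm_eq]
  · simp

/-- counting a finite type fibrewise over a map to a `Fintype` -/
theorem card_eq_sum_card_fiber {α β : Type*} [Finite α] [Fintype β] (g : α → β) :
    Nat.card α = ∑ b : β, Nat.card {a // g a = b} := by
  rw [← Nat.card_sigma]
  exact Nat.card_congr (Equiv.sigmaFiberEquiv g).symm

/-- nonzero ideals with norm conditions, as a subtype of all ideals -/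
theorem card_ideal_eq_card_nonZeroDivisors (m : ℕ) (r : ZMod m) (n : ℕ) :
    Nat.card {I : Ideal (𝓞 K) // 1 ≤ absNorm I ∧ absNorm I ≤ n ∧
        ((absNorm I : ℕ) : ZMod m) = r} =
      Nat.card {I : (Ideal (𝓞 K))⁰ // absNorm (I : Ideal (𝓞 K)) ≤ n ∧
        ((absNorm (I : Ideal (𝓞 K)) : ℕ) : ZMod m) = r} := by
  have e : {I : Ideal (𝓞 K) // 1 ≤ absNorm I ∧ absNorm I ≤ n ∧
        ((absNorm I : ℕ) : ZMod m) = r} ≃
      {I : Ideal (𝓞 K) // I ∈ (Ideal (𝓞 K))⁰ ∧ (absNorm I ≤ n ∧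
        ((absNorm I : ℕ) : ZMod m) = r)} := by
    refine Equiv.subtypeEquivRight fun I => ?_
    have h0 : 1 ≤ absNorm I ↔ I ∈ (Ideal (𝓞 K))⁰ := by
      rw [mem_nonZeroDivisors_iff_ne_zero, Ideal.zero_eq_bot, Ne, ← Ideal.absNorm_eq_zero_iff]
      omega
    rw [h0]
  exact Nat.card_congr (e.trans (Equiv.subtypeSubtypeEquivSubtypeInter
    (fun I : Ideal (𝓞 K) => I ∈ (Ideal (𝓞 K))⁰)
    (fun I => absNorm I ≤ n ∧ ((absNorm I : ℕ) : ZMod m) = r)).symm)

theorem finite_nonZeroDivisors_norm (m : ℕ) (r : ZMod m) (n : ℕ) :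
    Finite {I : (Ideal (𝓞 K))⁰ // absNorm (I : Ideal (𝓞 K)) ≤ n ∧
      ((absNorm (I : Ideal (𝓞 K)) : ℕ) : ZMod m) = r} := by
  have h := Ideal.finite_setOfPred_absNorm_le₀ (S := 𝓞 K) n
  exact (h.subset (fun I hI => hI.1)).to_subtype

/-- **CC ⟹ IC**. -/
theorem idealNormClassCount_of_cosetConeCount (hCC : CosetConeCountStatement) :
    IdealNormClassCountStatement := by
  classical
  intro K _ _ m _ r
  -- representatives of the inverse classes
  choose J hJ using fun C : ClassGroup (𝓞 K) => ClassGroup.mk0_surjective (C⁻¹)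
  have hJ0 : ∀ C, absNorm (J C : Ideal (𝓞 K)) ≠ 0 :=
    fun C => (absNorm_pos_of_nonZeroDivisors (J C)).ne'
  have hne : ∀ C, NeZero (m * absNorm (J C : Ideal (𝓞 K))) :=
    fun C => ⟨mul_ne_zero (NeZero.ne m) (hJ0 C)⟩
  have hcc : ∀ C : ClassGroup (𝓞 K), ∃ (κ B : ℝ), ∀ y : ℝ, 1 ≤ y →
      |(Nat.card {a : idealSet K (J C) // mixedEmbedding.norm (a : mixedSpace K) ≤ y ∧
          ((intNorm (idealSetMap K (J C) a) : ℕ) : ZMod (m * absNorm (J C : Ideal (𝓞 K)))) =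
            ((r.val * absNorm (J C : Ideal (𝓞 K)) : ℕ) :
              ZMod (m * absNorm (J C : Ideal (𝓞 K))))} : ℝ) - κ * y| ≤
        B * y ^ (1 - 1 / (Module.finrank ℚ K : ℝ)) := by
    intro C
    have := hne C
    exact hCC K (J C) (m * absNorm (J C : Ideal (𝓞 K))) _
  choose κ B hκ using hcc
  set e : ℝ := 1 - 1 / (Module.finrank ℚ K : ℝ) with he
  set w : ℝ := (torsionOrder K : ℝ) with hw
  have hw0 : 0 < w := by
    rw [hw]
    exact_mod_cast (torsionOrder_pos K)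
  set nJ : ClassGroup (𝓞 K) → ℝ := fun C => (absNorm (J C : Ideal (𝓞 K)) : ℝ) with hnJ
  have hnJ0 : ∀ C, 0 < nJ C := fun C => by
    simp only [hnJ]
    exact_mod_cast absNorm_pos_of_nonZeroDivisors (J C)
  refine ⟨∑ C, κ C * nJ C / w, ∑ C, |B C| * nJ C ^ e / w, fun n => ?_⟩
  rcases Nat.eq_zero_or_pos n with hn | hn
  · -- `n = 0`
    subst hn
    have h0 : Nat.card {I : Ideal (𝓞 K) // 1 ≤ absNorm I ∧ absNorm I ≤ 0 ∧
        ((absNorm I : ℕ) : ZMod m) = r} = 0 := by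
      rw [Nat.card_eq_zero]
      left
      exact ⟨fun ⟨I, h1, h2, _⟩ => by omega⟩
    rw [h0]
    simp only [Nat.cast_zero, mul_zero, sub_self, abs_zero]
    refine mul_nonneg (Finset.sum_nonneg fun C _ => ?_) (Real.rpow_nonneg le_rfl _)
    exact div_nonneg (mul_nonneg (abs_nonneg _) (Real.rpow_nonneg (hnJ0 C).le _)) hw0.le
  · -- `n ≥ 1`
    have hn1 : (1 : ℝ) ≤ n := by exact_mod_cast hn
    rw [card_ideal_eq_card_nonZeroDivisors]
    have := finite_nonZeroDivisors_norm (K := K) m r n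
    rw [card_eq_sum_card_fiber (fun I : {I : (Ideal (𝓞 K))⁰ //
      absNorm (I : Ideal (𝓞 K)) ≤ n ∧ ((absNorm (I : Ideal (𝓞 K)) : ℕ) : ZMod m) = r} =>
        ClassGroup.mk0 I.1)]
    push_cast
    rw [Finset.sum_mul, ← Finset.sum_sub_distrib, Finset.sum_mul]
    refine (Finset.abs_sum_le_sum_abs _ _).trans (Finset.sum_le_sum fun C _ => ?_)
    -- one class
    have hA := card_class_eq_card_dvd (hJ C) m r n
    have hB := card_dvd_mul_torsionOrder (J C) (m * absNorm (J C : Ideal (𝓞 K)))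
      ((r.val * absNorm (J C : Ideal (𝓞 K)) : ℕ) : ZMod (m * absNorm (J C : Ideal (𝓞 K))))
      (n * absNorm (J C : Ideal (𝓞 K)))
    have hfib : Nat.card {I : {I : (Ideal (𝓞 K))⁰ //
        absNorm (I : Ideal (𝓞 K)) ≤ n ∧ ((absNorm (I : Ideal (𝓞 K)) : ℕ) : ZMod m) = r} //
          ClassGroup.mk0 I.1 = C} =
        Nat.card {I : (Ideal (𝓞 K))⁰ // (absNorm (I : Ideal (𝓞 K)) ≤ n ∧
          ((absNorm (I : Ideal (𝓞 K)) : ℕ) : ZMod m) = r) ∧ ClassGroup.mk0 I = C} :=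
      Nat.card_congr (Equiv.subtypeSubtypeEquivSubtypeInter
        (fun I : (Ideal (𝓞 K))⁰ => absNorm (I : Ideal (𝓞 K)) ≤ n ∧
          ((absNorm (I : Ideal (𝓞 K)) : ℕ) : ZMod m) = r)
        (fun I : (Ideal (𝓞 K))⁰ => ClassGroup.mk0 I = C))
    rw [hfib, hA]
    have hy : (1 : ℝ) ≤ ((n * absNorm (J C : Ideal (𝓞 K)) : ℕ) : ℝ) := by
      have : 1 ≤ n * absNorm (J C : Ideal (𝓞 K)) :=
        Nat.mul_pos hn (absNorm_pos_of_nonZeroDivisors (J C))
      exact_mod_cast this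
    have hC := hκ C _ hy
    rw [← hB] at hC
    push_cast at hC
    set X : ℝ := (Nat.card {I : (Ideal (𝓞 K))⁰ // (J C : Ideal (𝓞 K)) ∣ I ∧
        (IsPrincipal (I : Ideal (𝓞 K)) ∧
          absNorm (I : Ideal (𝓞 K)) ≤ n * absNorm (J C : Ideal (𝓞 K)) ∧
          ((absNorm (I : Ideal (𝓞 K)) : ℕ) : ZMod (m * absNorm (J C : Ideal (𝓞 K)))) =
            ((r.val * absNorm (J C : Ideal (𝓞 K)) : ℕ) :
              ZMod (m * absNorm (J C : Ideal (𝓞 K)))))} : ℝ) with hX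
    have hC' : |X * w - κ C * ((n : ℝ) * nJ C)| ≤ B C * ((n : ℝ) * nJ C) ^ e := by
      simpa [hX, hw, hnJ] using hC
    have hpow : ((n : ℝ) * nJ C) ^ e = (n : ℝ) ^ e * nJ C ^ e :=
      Real.mul_rpow (Nat.cast_nonneg n) (hnJ0 C).le
    have hne0 : 0 ≤ (n : ℝ) ^ e * nJ C ^ e :=
      mul_nonneg (Real.rpow_nonneg (Nat.cast_nonneg n) _) (Real.rpow_nonneg (hnJ0 C).le _)
    have h1 : X - κ C * nJ C / w * (n : ℝ) = (X * w - κ C * ((n : ℝ) * nJ C)) / w := by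
      field_simp
    rw [h1, abs_div, abs_of_pos hw0, div_le_iff₀ hw0]
    calc |X * w - κ C * ((n : ℝ) * nJ C)| ≤ B C * ((n : ℝ) * nJ C) ^ e := hC'
      _ ≤ |B C| * ((n : ℝ) ^ e * nJ C ^ e) := by
          rw [hpow]
          exact mul_le_mul_of_nonneg_right (le_abs_self _) hne0
      _ = |B C| * nJ C ^ e / w * (n : ℝ) ^ e * w := by
          field_simp

end Fermat.Agent.H90.Ch2
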