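import Fermat.Agent.H90.Ch2.ClassDecomp

/-!
# P-CHEB phase 2, row 442: `CosetConeCountStatement → IdealCharSumStatement` (helper90)
-/

set_option autoImplicit false

namespace Fermat.Agent.H90.Ch2

/-- **CC ⟹ CH2-COUNT**: helper62's `IdealCharSumStatement` follows from the coset cone count. -/
theorem idealCharSum_of_cosetConeCount (hCC : CosetConeCountStatement) :
    Fermat.Agent.H62.Cheb2.IdealCharSumStatement :=
  idealCharSum_of_idealNormClassCount (idealNormClassCount_of_cosetConeCount hCC)

end Fermat.Agent.H90.Ch2
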