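import Mathlib
import Fermat.Agent.H68.NormLeOneThin

/-!
# P-CHEB phase 2, row 442, block (B): the signed norm on the mixed space (helper90)

`s x := Algebra.norm ℝ x` on `mixedSpace K` (a finite free `ℝ`-algebra) is continuous, extends the
norm of `K`, does not vanish on the fundamental cone, and the two halves
`normLeOne K ∩ {± s > 0}` have thin frontier.  Moreover the norm of an algebraic integer modulo `M`
only depends on its class modulo `M 𝓞 K`.
-/

set_option autoImplicit false

open NumberField NumberField.mixedEmbedding NumberField.mixedEmbedding.fundamentalCone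
  NumberField.InfinitePlace Module

namespace Fermat.Agent.H90.Ch2

open scoped Classical

variable (K : Type*) [Field K] [NumberField K]

/-- the signed norm on the mixed space -/
noncomputable def sgnNorm (x : mixedSpace K) : ℝ := Algebra.norm ℝ x

/-- **(B1)** the signed norm is continuous. -/
theorem continuous_sgnNorm : Continuous (sgnNorm K) := by
  classical
  have h : sgnNorm K = fun x : mixedSpace K =>
      Matrix.det (Algebra.leftMulMatrix (latticeBasis K) x) := by
    funext x
    exact Algebra.norm_eq_matrix_det (latticeBasis K) x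
  rw [h]
  refine Continuous.matrix_det ?_
  exact (Algebra.leftMulMatrix (latticeBasis K)).toLinearMap.continuous_of_finiteDimensional

/-- **(B2)** the signed norm extends the norm of `K`. -/
theorem sgnNorm_mixedEmbedding (x : K) :
    sgnNorm K (mixedEmbedding K x) = ((Algebra.norm ℚ x : ℚ) : ℝ) := by
  classical
  rw [sgnNorm, Algebra.norm_eq_matrix_det (latticeBasis K),
    Algebra.norm_eq_matrix_det (integralBasis K)]
  have h : Algebra.leftMulMatrix (latticeBasis K) (mixedEmbedding K x) =
      (Algebra.leftMulMatrix (integralBasis K) x).map (Rat.castHom ℝ) := by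
    ext i j
    rw [Algebra.leftMulMatrix_eq_repr_mul, Matrix.map_apply, Algebra.leftMulMatrix_eq_repr_mul,
      latticeBasis_apply, ← map_mul, latticeBasis_repr_apply]
    rfl
  rw [h, ← RingHom.mapMatrix_apply, ← RingHom.map_det]
  rfl

/-- **(B2')** the signed norm of the image of an algebraic integer. -/
theorem sgnNorm_mixedEmbedding_int (ξ : 𝓞 K) :
    sgnNorm K (mixedEmbedding K (ξ : K)) = ((Algebra.norm ℤ ξ : ℤ) : ℝ) := by
  rw [sgnNorm_mixedEmbedding, ← Algebra.coe_norm_int]
  norm_cast

/-- homogeneity of the signed norm -/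
theorem sgnNorm_smul (r : ℝ) (x : mixedSpace K) :
    sgnNorm K (r • x) = r ^ Module.finrank ℝ (mixedSpace K) * sgnNorm K x := by
  rw [sgnNorm, sgnNorm, Algebra.smul_def, map_mul, Algebra.norm_algebraMap]

/-- **(B3)** the signed norm does not vanish where the norm does not vanish. -/
theorem sgnNorm_ne_zero_of_norm_ne_zero {x : mixedSpace K} (hx : mixedEmbedding.norm x ≠ 0) :
    sgnNorm K x ≠ 0 := by
  have h1 : ∀ w : {w : InfinitePlace K // IsReal w}, x.1 w ≠ 0 := by
    intro w h
    have := mixedEmbedding.norm_ne_zero_iff.mp hx w.1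
    rw [normAtPlace_apply_of_isReal w.2, h, norm_zero] at this
    exact this rfl
  have h2 : ∀ w : {w : InfinitePlace K // IsComplex w}, x.2 w ≠ 0 := by
    intro w h
    have := mixedEmbedding.norm_ne_zero_iff.mp hx w.1
    rw [normAtPlace_apply_of_isComplex w.2, h, norm_zero] at this
    exact this rfl
  let y : mixedSpace K := (fun w => (x.1 w)⁻¹, fun w => (x.2 w)⁻¹)
  have hxy : x * y = 1 := by
    refine Prod.ext ?_ ?_
    · funext w
      exact mul_inv_cancel₀ (h1 w)
    · funext w
      exact mul_inv_cancel₀ (h2 w)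
  intro h0
  have h3 : sgnNorm K x * sgnNorm K y = 1 := by
    rw [sgnNorm, sgnNorm, ← map_mul, hxy, map_one]
  rw [h0, zero_mul] at h3
  exact zero_ne_one h3

theorem sgnNorm_ne_zero_of_mem_fundamentalCone {x : mixedSpace K} (hx : x ∈ fundamentalCone K) :
    sgnNorm K x ≠ 0 :=
  sgnNorm_ne_zero_of_norm_ne_zero K (norm_pos_of_mem hx).ne'

/-- **(B4)** the norm modulo `M` only depends on the class modulo `M 𝓞 K`. -/
theorem norm_intCast_zmod_eq (M : ℕ) {ξ ξ' : 𝓞 K}
    (h : ξ - ξ' ∈ Ideal.span {((M : ℕ) : 𝓞 K)}) :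
    ((Algebra.norm ℤ ξ : ℤ) : ZMod M) = ((Algebra.norm ℤ ξ' : ℤ) : ZMod M) := by
  classical
  obtain ⟨η, hη⟩ := Ideal.mem_span_singleton'.mp h
  have hξ : ξ = ξ' + η * ((M : ℕ) : 𝓞 K) := by rw [hη]; ring
  set b := RingOfIntegers.basis K with hb
  rw [Algebra.norm_eq_matrix_det b, Algebra.norm_eq_matrix_det b]
  show (Int.castRingHom (ZMod M)) _ = (Int.castRingHom (ZMod M)) _
  rw [RingHom.map_det, RingHom.map_det]
  congr 1
  rw [hξ, map_add, map_mul]
  have hM : Algebra.leftMulMatrix b ((M : ℕ) : 𝓞 K) =
      algebraMap ℤ (Matrix (Free.ChooseBasisIndex ℤ (𝓞 K)) (Free.ChooseBasisIndex ℤ (𝓞 K)) ℤ)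
        (M : ℤ) := by
    have : ((M : ℕ) : 𝓞 K) = algebraMap ℤ (𝓞 K) (M : ℤ) := by simp
    rw [this, AlgHom.commutes]
  rw [hM, map_add, map_mul]
  have h0 : (Int.castRingHom (ZMod M)).mapMatrix
      (algebraMap ℤ (Matrix (Free.ChooseBasisIndex ℤ (𝓞 K)) (Free.ChooseBasisIndex ℤ (𝓞 K)) ℤ)
        (M : ℤ)) = 0 := by
    ext i j
    simp
  rw [h0, mul_zero, add_zero]

/-- **(B4')** divisibility form. -/
theorem dvd_norm_sub_norm (M : ℕ) {ξ ξ' : 𝓞 K}
    (h : ξ - ξ' ∈ Ideal.span {((M : ℕ) : 𝓞 K)}) :
    (M : ℤ) ∣ Algebra.norm ℤ ξ - Algebra.norm ℤ ξ' := by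
  have := norm_intCast_zmod_eq K M h
  rwa [ZMod.intCast_eq_intCast_iff_dvd_sub, dvd_sub_comm] at this

/-- the positive and negative halves of `normLeOne` -/
def normLeOnePos : Set (mixedSpace K) := normLeOne K ∩ {x | 0 < sgnNorm K x}

/-- the negative half of `normLeOne` -/
def normLeOneNeg : Set (mixedSpace K) := normLeOne K ∩ {x | sgnNorm K x < 0}

theorem frontier_inter_open_subset {X : Type*} [TopologicalSpace X] {A U : Set X} {s : X → ℝ}
    (hs : Continuous s) (hA : ∀ x ∈ A, s x ≠ 0) (hU : U = {x | 0 < s x} ∨ U = {x | s x < 0}) :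
    frontier (A ∩ U) ⊆ frontier A := by
  have hUo : IsOpen U := by
    rcases hU with h | h
    · rw [h]; exact isOpen_lt continuous_const hs
    · rw [h]; exact isOpen_lt hs continuous_const
  have hfr : frontier U ⊆ {x | s x = 0} := by
    rcases hU with h | h
    · rw [h]
      exact (frontier_lt_subset_eq continuous_const hs).trans (fun x hx => hx.symm)
    · rw [h]
      exact frontier_lt_subset_eq hs continuous_const
  intro x hx
  rcases frontier_inter_subset A U hx with h | h
  · exact h.1
  · have hx0 : s x = 0 := hfr h.2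
    have hxA : x ∉ A := fun hxA => hA x hxA hx0
    exact ⟨h.1, fun hint => hxA (interior_subset hint)⟩

/-- **(B5)** the frontier of the positive half is contained in the frontier of `normLeOne`. -/
theorem frontier_normLeOnePos_subset :
    frontier (normLeOnePos K) ⊆ frontier (normLeOne K) :=
  frontier_inter_open_subset (continuous_sgnNorm K)
    (fun _ hx => sgnNorm_ne_zero_of_mem_fundamentalCone K hx.1) (Or.inl rfl)

theorem frontier_normLeOneNeg_subset :
    frontier (normLeOneNeg K) ⊆ frontier (normLeOne K) :=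
  frontier_inter_open_subset (continuous_sgnNorm K)
    (fun _ hx => sgnNorm_ne_zero_of_mem_fundamentalCone K hx.1) (Or.inr rfl)

theorem isThin_frontier_normLeOnePos :
    Fermat.Agent.H68.IsThin (Module.finrank ℚ K - 1) (frontier (normLeOnePos K)) :=
  (Fermat.Agent.H68.isThin_frontier_normLeOne K).subset (frontier_normLeOnePos_subset K)

theorem isThin_frontier_normLeOneNeg :
    Fermat.Agent.H68.IsThin (Module.finrank ℚ K - 1) (frontier (normLeOneNeg K)) :=
  (Fermat.Agent.H68.isThin_frontier_normLeOne K).subset (frontier_normLeOneNeg_subset K)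

theorem isBounded_normLeOnePos : Bornology.IsBounded (normLeOnePos K) :=
  (isBounded_normLeOne K).subset Set.inter_subset_left

theorem isBounded_normLeOneNeg : Bornology.IsBounded (normLeOneNeg K) :=
  (isBounded_normLeOne K).subset Set.inter_subset_left

end Fermat.Agent.H90.Ch2
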